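import Mathlib
import Fermat.Prelude.Def_ModularCurve_GenusNumerics

/-!
# `SL(2,ℤ) ⧸ Γ₀(N)`: the basic criterion

Left cosets `γ Γ₀(N)` are classified by the first column `(a, c)` of `γ` up to
`a c' ≡ a' c (mod N)`.
-/

set_option autoImplicit false

open CongruenceSubgroup
open scoped MatrixGroups

namespace Fermat.Agent.X0Count

/-- `γ Γ₀(N) = γ' Γ₀(N)` iff `N ∣ a c' - a' c` for the first columns `(a, c)`, `(a', c')`. -/
theorem mk_eq_mk_iff (N : ℕ) (γ γ' : SL(2, ℤ)) :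
    (QuotientGroup.mk γ : SL(2, ℤ) ⧸ Gamma0 N) = QuotientGroup.mk γ' ↔
      (N : ℤ) ∣ γ.1 0 0 * γ'.1 1 0 - γ'.1 0 0 * γ.1 1 0 := by
  rw [QuotientGroup.eq, Gamma0_mem, ZMod.intCast_zmod_eq_zero_iff_dvd]
  have h : ((γ⁻¹ * γ' : SL(2, ℤ)) : Matrix (Fin 2) (Fin 2) ℤ) 1 0
      = γ.1 0 0 * γ'.1 1 0 - γ'.1 0 0 * γ.1 1 0 := by
    rw [Matrix.SpecialLinearGroup.coe_mul, Matrix.SpecialLinearGroup.coe_inv,
      Matrix.adjugate_fin_two, Matrix.mul_apply, Fin.sum_univ_two]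
    simp
    ring
  rw [h]

/-- the left action on cosets. -/
theorem smul_mk (N : ℕ) (g γ : SL(2, ℤ)) :
    g • (QuotientGroup.mk γ : SL(2, ℤ) ⧸ Gamma0 N) = QuotientGroup.mk (g * γ) := rfl

/-- first column of `S * γ`. -/
theorem S_mul_col (γ : SL(2, ℤ)) :
    (ModularGroup.S * γ).1 0 0 = -γ.1 1 0 ∧ (ModularGroup.S * γ).1 1 0 = γ.1 0 0 := by
  constructor <;>
  simp [ModularGroup.S, Matrix.SpecialLinearGroup.coe_mul, Matrix.mul_apply, Fin.sum_univ_two]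

/-- first column of `T * γ`. -/
theorem T_mul_col (γ : SL(2, ℤ)) :
    (ModularGroup.T * γ).1 0 0 = γ.1 0 0 + γ.1 1 0 ∧ (ModularGroup.T * γ).1 1 0 = γ.1 1 0 := by
  constructor <;>
  simp [ModularGroup.T, Matrix.SpecialLinearGroup.coe_mul, Matrix.mul_apply, Fin.sum_univ_two]

/-- first column of `T ^ n * γ`. -/
theorem T_zpow_mul_col (n : ℤ) (γ : SL(2, ℤ)) :
    (ModularGroup.T ^ n * γ).1 0 0 = γ.1 0 0 + n * γ.1 1 0 ∧
      (ModularGroup.T ^ n * γ).1 1 0 = γ.1 1 0 := by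
  constructor <;>
  simp [ModularGroup.coe_T_zpow, Matrix.SpecialLinearGroup.coe_mul, Matrix.mul_apply,
    Fin.sum_univ_two]

/-- first column of `S * T * γ`. -/
theorem ST_mul_col (γ : SL(2, ℤ)) :
    (ModularGroup.S * ModularGroup.T * γ).1 0 0 = -γ.1 1 0 ∧
      (ModularGroup.S * ModularGroup.T * γ).1 1 0 = γ.1 0 0 + γ.1 1 0 := by
  rw [mul_assoc]
  obtain ⟨h1, h2⟩ := S_mul_col (ModularGroup.T * γ)
  obtain ⟨h3, h4⟩ := T_mul_col γ
  exact ⟨by rw [h1, h4], by rw [h2, h3]⟩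

/-- the first column of an element of `SL(2,ℤ)` is coprime. -/
theorem isCoprime_col (γ : SL(2, ℤ)) : IsCoprime (γ.1 0 0) (γ.1 1 0) := by
  refine ⟨γ.1 1 1, -γ.1 0 1, ?_⟩
  have h := γ.2
  rw [Matrix.det_fin_two] at h
  linarith

/-- every coprime pair is the first column of an element of `SL(2,ℤ)`. -/
theorem exists_col {a c : ℤ} (h : IsCoprime a c) :
    ∃ γ : SL(2, ℤ), γ.1 0 0 = a ∧ γ.1 1 0 = c := by
  obtain ⟨x, y, hxy⟩ := h
  refine ⟨⟨!![a, -y; c, x], ?_⟩, by simp, by simp⟩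
  rw [Matrix.det_fin_two_of]
  linarith

end Fermat.Agent.X0Count
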