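import Mathlib
import Fermat.Prelude.Def_ModularCurve_GenusNumerics
import Fermat.Agent.X0Count.Basic

/-!
# `T`-orbits on `SL(2,ℤ) ⧸ Γ₀(N)`: the number of cusps

The left cosets `γ Γ₀(N)` are classified by first columns `(a, c)` modulo
`a c' ≡ a' c (mod N)`.  The orbit of such a coset under `T` is determined by
`g = gcd(c, N)` and by the class of `a * (c / g)⁻¹` in `(ℤ / gcd(g, N / g))ˣ`, and
every such pair occurs.  Hence the number of orbits is `∑ g ∣ N, φ(gcd(g, N / g))`.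
-/

set_option autoImplicit false

open CongruenceSubgroup ModularCurve
open scoped MatrixGroups

namespace Fermat.Agent.X0Count

/-! ### arithmetic of first columns -/

/-- if two coprime columns are related, the gcd's of the lower entries with `N` agree. -/
theorem cu_gcd_eq_of_dvd (N : ℕ) (a c a' c' : ℤ) (h : IsCoprime a c) (h' : IsCoprime a' c')
    (n : ℤ) (hdiv : (N : ℤ) ∣ (a + n * c) * c' - a' * c) :
    Int.gcd c N = Int.gcd c' N := by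
  apply Nat.dvd_antisymm
  · apply Int.natCast_dvd_natCast.mp
    refine Int.dvd_coe_gcd ?_ (Int.gcd_dvd_right c N)
    have h1 : ((Int.gcd c N : ℕ) : ℤ) ∣ (a + n * c) * c' := by
      have h2 : ((Int.gcd c N : ℕ) : ℤ) ∣ (a + n * c) * c' - a' * c :=
        (Int.gcd_dvd_right c N).trans hdiv
      have h3 : ((Int.gcd c N : ℕ) : ℤ) ∣ a' * c :=
        (Int.gcd_dvd_left c N).mul_left a'
      have h4 := dvd_add h2 h3
      rwa [sub_add_cancel] at h4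
    have hcop : IsCoprime ((Int.gcd c N : ℕ) : ℤ) (a + n * c) :=
      ((h.add_mul_right_left n).symm).of_isCoprime_of_dvd_left (Int.gcd_dvd_left c N)
    exact hcop.dvd_of_dvd_mul_left h1
  · apply Int.natCast_dvd_natCast.mp
    refine Int.dvd_coe_gcd ?_ (Int.gcd_dvd_right c' N)
    have h1 : ((Int.gcd c' N : ℕ) : ℤ) ∣ a' * c := by
      have h2 : ((Int.gcd c' N : ℕ) : ℤ) ∣ (a + n * c) * c' - a' * c :=
        (Int.gcd_dvd_right c' N).trans hdiv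
      have h3 : ((Int.gcd c' N : ℕ) : ℤ) ∣ (a + n * c) * c' :=
        (Int.gcd_dvd_left c' N).mul_left _
      have h4 := dvd_sub h3 h2
      rwa [sub_sub_cancel] at h4
    have hcop : IsCoprime ((Int.gcd c' N : ℕ) : ℤ) a' :=
      h'.symm.of_isCoprime_of_dvd_left (Int.gcd_dvd_left c' N)
    exact hcop.dvd_of_dvd_mul_left h1

/-- the linear congruence deciding whether two columns with the same `g` are related. -/
theorem cu_rel_aux (N g N' : ℕ) (hg : g ≠ 0) (hN : N = g * N') (a c a' c' c1 c1' : ℤ)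
    (hc : c = g * c1) (hc' : c' = g * c1') (hc1 : IsCoprime c1 (N' : ℤ))
    (hc1' : IsCoprime c1' (N' : ℤ)) :
    (∃ n : ℤ, (N : ℤ) ∣ (a + n * c) * c' - a' * c) ↔
      ((Nat.gcd g N' : ℕ) : ℤ) ∣ a * c1' - a' * c1 := by
  subst hN hc hc'
  have hg' : (g : ℤ) ≠ 0 := by exact_mod_cast hg
  constructor
  · rintro ⟨n, hn⟩
    have h1 : (g : ℤ) * (N' : ℤ) ∣ (g : ℤ) * ((a + n * (g * c1)) * c1' - a' * c1) := by
      have : (a + n * (g * c1)) * (g * c1') - a' * (g * c1)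
          = (g : ℤ) * ((a + n * (g * c1)) * c1' - a' * c1) := by ring
      rw [← this]
      exact_mod_cast hn
    have h2 : (N' : ℤ) ∣ (a + n * (g * c1)) * c1' - a' * c1 :=
      (mul_dvd_mul_iff_left hg').mp h1
    have h3 : ((Nat.gcd g N' : ℕ) : ℤ) ∣ (a + n * (g * c1)) * c1' - a' * c1 :=
      (Int.natCast_dvd_natCast.mpr (Nat.gcd_dvd_right g N')).trans h2
    have h4 : ((Nat.gcd g N' : ℕ) : ℤ) ∣ (g : ℤ) * (n * c1 * c1') :=
      (Int.natCast_dvd_natCast.mpr (Nat.gcd_dvd_left g N')).mul_right _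
    have h5 := dvd_sub h3 h4
    have : (a + n * (g * c1)) * c1' - a' * c1 - (g : ℤ) * (n * c1 * c1')
        = a * c1' - a' * c1 := by ring
    rwa [this] at h5
  · rintro ⟨k, hk⟩
    obtain ⟨u, v, hu⟩ := hc1
    obtain ⟨u', v', hu'⟩ := hc1'
    have hm := Nat.gcd_eq_gcd_ab g N'
    refine ⟨-k * Nat.gcdA g N' * u * u', k * Nat.gcdB g N'
      + k * Nat.gcdA g N' * g * (v + v' - v * v' * N'), ?_⟩
    push_cast
    linear_combination (g : ℤ) * hk + (g : ℤ) * k * hm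
      - (g : ℤ) ^ 2 * k * Nat.gcdA g N' * (u' * c1') * hu
      - (g : ℤ) ^ 2 * k * Nat.gcdA g N' * (1 - v * N') * hu'

/-- the decomposition `c = g * c1`, `N = g * N'` with `c1` prime to `N'`. -/
theorem cu_isCoprime_div (N : ℕ) [NeZero N] (c : ℤ) :
    IsCoprime (c / (Int.gcd c N : ℤ)) (((N / Int.gcd c N : ℕ)) : ℤ) := by
  have hpos : 0 < Int.gcd c N := Int.gcd_pos_of_ne_zero_right c (by exact_mod_cast NeZero.ne N)
  rw [Int.isCoprime_iff_gcd_eq_one, Int.natCast_div]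
  exact Int.gcd_div_gcd_div_gcd hpos

/-- criterion for two coprime columns to be in the same orbit of `T` modulo `Γ₀(N)`. -/
theorem cu_rel_iff (N : ℕ) [NeZero N] (a c a' c' : ℤ) (h : IsCoprime a c)
    (h' : IsCoprime a' c') :
    (∃ n : ℤ, (N : ℤ) ∣ (a + n * c) * c' - a' * c) ↔
      Int.gcd c N = Int.gcd c' N ∧
        ((Nat.gcd (Int.gcd c N) (N / Int.gcd c N) : ℕ) : ℤ) ∣
          a * (c' / (Int.gcd c N : ℤ)) - a' * (c / (Int.gcd c N : ℤ)) := by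
  have hpos : 0 < Int.gcd c N := Int.gcd_pos_of_ne_zero_right c (by exact_mod_cast NeZero.ne N)
  have hN : N = Int.gcd c N * (N / Int.gcd c N) :=
    (Nat.mul_div_cancel' (Int.natCast_dvd_natCast.mp (Int.gcd_dvd_right c N))).symm
  have hc : c = (Int.gcd c N : ℤ) * (c / (Int.gcd c N : ℤ)) :=
    (Int.mul_ediv_cancel' (Int.gcd_dvd_left c N)).symm
  have key : Int.gcd c N = Int.gcd c' N →
      ((∃ n : ℤ, (N : ℤ) ∣ (a + n * c) * c' - a' * c) ↔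
        ((Nat.gcd (Int.gcd c N) (N / Int.gcd c N) : ℕ) : ℤ) ∣
          a * (c' / (Int.gcd c N : ℤ)) - a' * (c / (Int.gcd c N : ℤ))) := by
    intro hgg
    have hc' : c' = (Int.gcd c N : ℤ) * (c' / (Int.gcd c N : ℤ)) := by
      rw [hgg]
      exact (Int.mul_ediv_cancel' (Int.gcd_dvd_left c' N)).symm
    have hcop' : IsCoprime (c' / (Int.gcd c N : ℤ)) (((N / Int.gcd c N : ℕ)) : ℤ) := by
      rw [hgg]
      exact cu_isCoprime_div N c'
    exact cu_rel_aux N (Int.gcd c N) (N / Int.gcd c N) hpos.ne' hN a c a' c' _ _ hc hc'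
      (cu_isCoprime_div N c) hcop'
  constructor
  · rintro ⟨n, hn⟩
    have hgg := cu_gcd_eq_of_dvd N a c a' c' h h' n hn
    exact ⟨hgg, (key hgg).mp ⟨n, hn⟩⟩
  · rintro ⟨hgg, hm⟩
    exact (key hgg).mpr hm

/-! ### the orbit relation -/

/-- the action of the subgroup generated by `T` on cosets. -/
theorem cu_smul_mk (N : ℕ) (t : Subgroup.zpowers ModularGroup.T) (γ : SL(2, ℤ)) :
    t • (QuotientGroup.mk γ : SL(2, ℤ) ⧸ Gamma0 N) = QuotientGroup.mk ((t : SL(2, ℤ)) * γ) :=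
  rfl

/-- two cosets are in the same `T`-orbit iff their first columns are related. -/
theorem cu_orbit_iff (N : ℕ) (γ γ' : SL(2, ℤ)) :
    (Quotient.mk'' (QuotientGroup.mk γ : SL(2, ℤ) ⧸ Gamma0 N) :
        MulAction.orbitRel.Quotient (Subgroup.zpowers ModularGroup.T) (SL(2, ℤ) ⧸ Gamma0 N))
      = Quotient.mk'' (QuotientGroup.mk γ' : SL(2, ℤ) ⧸ Gamma0 N) ↔
    ∃ n : ℤ, (N : ℤ) ∣ (γ.1 0 0 + n * γ.1 1 0) * γ'.1 1 0 - γ'.1 0 0 * γ.1 1 0 := by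
  rw [eq_comm, Quotient.eq'', MulAction.orbitRel_apply, MulAction.mem_orbit_iff]
  constructor
  · rintro ⟨⟨t, ht⟩, h⟩
    obtain ⟨n, rfl⟩ := Subgroup.mem_zpowers_iff.mp ht
    refine ⟨n, ?_⟩
    rw [cu_smul_mk, mk_eq_mk_iff] at h
    obtain ⟨h1, h2⟩ := T_zpow_mul_col n γ
    rw [h1, h2] at h
    exact h
  · rintro ⟨n, hn⟩
    refine ⟨⟨ModularGroup.T ^ n, Subgroup.zpow_mem_zpowers _ n⟩, ?_⟩
    rw [cu_smul_mk, mk_eq_mk_iff]
    obtain ⟨h1, h2⟩ := T_zpow_mul_col n γ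
    rw [h1, h2]
    exact hn

/-! ### the invariants -/

/-- the first invariant of a column: `gcd(c, N)`. -/
def cu_g (N : ℕ) (γ : SL(2, ℤ)) : ℕ := Int.gcd (γ.1 1 0) N

theorem cu_g_mem (N : ℕ) [NeZero N] (γ : SL(2, ℤ)) : cu_g N γ ∈ N.divisors :=
  Nat.mem_divisors.mpr ⟨Int.natCast_dvd_natCast.mp (Int.gcd_dvd_right _ _), NeZero.ne N⟩

/-- the second invariant `a * (c / g)⁻¹` modulo `gcd(g, N / g)`, for an arbitrary `g`
(with a junk value when the entries are not units). -/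
noncomputable def cu_U (N g : ℕ) (γ : SL(2, ℤ)) : (ZMod (Nat.gcd g (N / g)))ˣ :=
  if h : IsCoprime (γ.1 0 0) ((Nat.gcd g (N / g) : ℕ) : ℤ) ∧
      IsCoprime (γ.1 1 0 / (g : ℤ)) ((Nat.gcd g (N / g) : ℕ) : ℤ) then
    ZMod.unitOfIsCoprime _ h.1 / ZMod.unitOfIsCoprime _ h.2
  else 1

theorem cu_U_spec (N g : ℕ) (γ : SL(2, ℤ))
    (h1 : IsCoprime (γ.1 0 0) ((Nat.gcd g (N / g) : ℕ) : ℤ))
    (h2 : IsCoprime (γ.1 1 0 / (g : ℤ)) ((Nat.gcd g (N / g) : ℕ) : ℤ)) :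
    cu_U N g γ = ZMod.unitOfIsCoprime _ h1 / ZMod.unitOfIsCoprime _ h2 :=
  dif_pos ⟨h1, h2⟩

theorem cu_coprime_one (N : ℕ) (γ : SL(2, ℤ)) :
    IsCoprime (γ.1 0 0) ((Nat.gcd (cu_g N γ) (N / cu_g N γ) : ℕ) : ℤ) := by
  have h1 : ((Nat.gcd (cu_g N γ) (N / cu_g N γ) : ℕ) : ℤ) ∣ γ.1 1 0 :=
    (Int.natCast_dvd_natCast.mpr (Nat.gcd_dvd_left _ _)).trans (Int.gcd_dvd_left _ _)
  exact ((isCoprime_col γ).symm.of_isCoprime_of_dvd_left h1).symm

theorem cu_coprime_two (N : ℕ) [NeZero N] (γ : SL(2, ℤ)) :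
    IsCoprime (γ.1 1 0 / (cu_g N γ : ℤ)) ((Nat.gcd (cu_g N γ) (N / cu_g N γ) : ℕ) : ℤ) := by
  have h1 : ((Nat.gcd (cu_g N γ) (N / cu_g N γ) : ℕ) : ℤ) ∣ ((N / cu_g N γ : ℕ) : ℤ) :=
    Int.natCast_dvd_natCast.mpr (Nat.gcd_dvd_right _ _)
  exact ((cu_isCoprime_div N (γ.1 1 0)).symm.of_isCoprime_of_dvd_left h1).symm

/-- the complete invariant of the `T`-orbit of `γ Γ₀(N)`. -/
noncomputable def cu_F (N : ℕ) [NeZero N] (γ : SL(2, ℤ)) :
    Σ g : {g // g ∈ N.divisors}, (ZMod (Nat.gcd g (N / g)))ˣ :=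
  ⟨⟨cu_g N γ, cu_g_mem N γ⟩, cu_U N (cu_g N γ) γ⟩

theorem cu_sigma_aux (N : ℕ) (γ γ' : SL(2, ℤ)) (g1 g2 : ℕ) (h1 : g1 ∈ N.divisors)
    (h2 : g2 ∈ N.divisors) :
    (⟨⟨g1, h1⟩, cu_U N g1 γ⟩ : Σ g : {g // g ∈ N.divisors}, (ZMod (Nat.gcd g (N / g)))ˣ)
        = ⟨⟨g2, h2⟩, cu_U N g2 γ'⟩ ↔
      g1 = g2 ∧ cu_U N g1 γ = cu_U N g1 γ' := by
  constructor
  · intro h
    have h12 : g1 = g2 := congrArg (fun x => (x.1 : ℕ)) h
    subst h12
    exact ⟨rfl, by simpa using h⟩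
  · rintro ⟨rfl, h⟩
    rw [h]

theorem cu_F_eq_iff (N : ℕ) [NeZero N] (γ γ' : SL(2, ℤ)) :
    cu_F N γ = cu_F N γ' ↔
      ∃ n : ℤ, (N : ℤ) ∣ (γ.1 0 0 + n * γ.1 1 0) * γ'.1 1 0 - γ'.1 0 0 * γ.1 1 0 := by
  rw [cu_rel_iff N _ _ _ _ (isCoprime_col γ) (isCoprime_col γ')]
  unfold cu_F
  rw [cu_sigma_aux]
  refine and_congr_right (fun hgg => ?_)
  have hA' : IsCoprime (γ'.1 0 0) ((Nat.gcd (cu_g N γ) (N / cu_g N γ) : ℕ) : ℤ) := by
    rw [hgg]
    exact cu_coprime_one N γ'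
  have hB' : IsCoprime (γ'.1 1 0 / (cu_g N γ : ℤ))
      ((Nat.gcd (cu_g N γ) (N / cu_g N γ) : ℕ) : ℤ) := by
    rw [hgg]
    exact cu_coprime_two N γ'
  rw [cu_U_spec N _ γ (cu_coprime_one N γ) (cu_coprime_two N γ), cu_U_spec N _ γ' hA' hB',
    div_eq_div_iff_mul_eq_mul, Units.ext_iff, Units.val_mul, Units.val_mul,
    ZMod.coe_unitOfIsCoprime, ZMod.coe_unitOfIsCoprime, ZMod.coe_unitOfIsCoprime,
    ZMod.coe_unitOfIsCoprime, ← Int.cast_mul, ← Int.cast_mul,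
    ZMod.intCast_eq_intCast_iff_dvd_sub, dvd_sub_comm]
  rfl

/-- every pair of invariants occurs. -/
theorem cu_F_surjective (N : ℕ) [NeZero N] : Function.Surjective (cu_F N) := by
  rintro ⟨⟨g, hg⟩, v⟩
  have hgN : g ∣ N := (Nat.mem_divisors.mp hg).1
  have hg0 : g ≠ 0 := (Nat.pos_of_mem_divisors hg).ne'
  have hg0' : (g : ℤ) ≠ 0 := by exact_mod_cast hg0
  have : NeZero g := ⟨hg0⟩
  obtain ⟨w, hw⟩ := ZMod.unitsMap_surjective (Nat.gcd_dvd_left g (N / g)) v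
  have hcop : IsCoprime (((w : ZMod g).val : ℕ) : ℤ) (g : ℤ) :=
    Nat.isCoprime_iff_coprime.mpr (ZMod.val_coe_unit_coprime w)
  obtain ⟨γ, h1, h2⟩ := exists_col hcop
  have hgγ : cu_g N γ = g := by
    unfold cu_g
    rw [h2, Int.gcd_natCast_natCast]
    exact Nat.gcd_eq_left hgN
  have hA : IsCoprime (γ.1 0 0) ((Nat.gcd g (N / g) : ℕ) : ℤ) := by
    rw [← hgγ]
    exact cu_coprime_one N γ
  have hB : IsCoprime (γ.1 1 0 / (g : ℤ)) ((Nat.gcd g (N / g) : ℕ) : ℤ) := by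
    rw [← hgγ]
    exact cu_coprime_two N γ
  have hU : cu_U N g γ = v := by
    have hone : ZMod.unitOfIsCoprime _ hB = 1 := by
      apply Units.ext
      rw [ZMod.coe_unitOfIsCoprime, h2, Int.ediv_self hg0']
      simp
    rw [cu_U_spec N g γ hA hB, hone, div_one]
    apply Units.ext
    rw [ZMod.coe_unitOfIsCoprime, h1, ← hw, ZMod.unitsMap_val, Int.cast_natCast,
      ZMod.natCast_val]
  refine ⟨γ, ?_⟩
  have hgen : ∀ (g1 : ℕ) (hg1 : g1 ∈ N.divisors), g = g1 →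
      (⟨⟨g1, hg1⟩, cu_U N g1 γ⟩ : Σ g : {g // g ∈ N.divisors}, (ZMod (Nat.gcd g (N / g)))ˣ)
        = ⟨⟨g, hg⟩, v⟩ := by
    intro g1 hg1 e
    subst e
    rw [hU]
  exact hgen (cu_g N γ) (cu_g_mem N γ) hgγ.symm

/-! ### the count -/

theorem cu_card_sigma (N : ℕ) [NeZero N] :
    Nat.card (Σ g : {g // g ∈ N.divisors}, (ZMod (Nat.gcd g (N / g)))ˣ) = cuspCount N := by
  rw [Nat.card_sigma, cuspCount,
    ← Finset.sum_coe_sort N.divisors (fun d => Nat.totient (Nat.gcd d (N / d)))]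
  refine Finset.sum_congr rfl (fun g _ => ?_)
  have : NeZero (Nat.gcd (g : ℕ) (N / (g : ℕ))) :=
    ⟨Nat.gcd_ne_zero_left (Nat.pos_of_mem_divisors g.2).ne'⟩
  rw [Nat.card_eq_fintype_card, ZMod.card_units_eq_totient]

/-- the number of `T`-orbits on `SL(2,ℤ) ⧸ Γ₀(N)` is the number of cusps of `X₀(N)`. -/
theorem card_orbits_T (N : ℕ) [NeZero N] :
    Nat.card (MulAction.orbitRel.Quotient (Subgroup.zpowers ModularGroup.T)
      (SL(2, ℤ) ⧸ Gamma0 N)) = cuspCount N := by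
  rw [← cu_card_sigma N]
  have hπ : Function.Surjective (fun γ : SL(2, ℤ) =>
      (Quotient.mk'' (QuotientGroup.mk γ : SL(2, ℤ) ⧸ Gamma0 N) :
        MulAction.orbitRel.Quotient (Subgroup.zpowers ModularGroup.T)
          (SL(2, ℤ) ⧸ Gamma0 N))) :=
    Quotient.mk''_surjective.comp QuotientGroup.mk_surjective
  have key : ∀ γ γ' : SL(2, ℤ),
      (Quotient.mk'' (QuotientGroup.mk γ : SL(2, ℤ) ⧸ Gamma0 N) :
        MulAction.orbitRel.Quotient (Subgroup.zpowers ModularGroup.T)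
          (SL(2, ℤ) ⧸ Gamma0 N)) = Quotient.mk'' (QuotientGroup.mk γ' : SL(2, ℤ) ⧸ Gamma0 N) ↔
      cu_F N γ = cu_F N γ' := by
    intro γ γ'
    rw [cu_orbit_iff, cu_F_eq_iff]
  refine Nat.card_congr (Equiv.ofBijective (fun b => cu_F N (Function.surjInv hπ b)) ⟨?_, ?_⟩)
  · intro b b' h
    have h2 := (key _ _).mpr h
    have e1 := Function.surjInv_eq hπ b
    have e2 := Function.surjInv_eq hπ b'
    rwa [e1, e2] at h2
  · intro s
    obtain ⟨γ, rfl⟩ := cu_F_surjective N s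
    refine ⟨Quotient.mk'' (QuotientGroup.mk γ), ?_⟩
    exact (key _ _).mp (Function.surjInv_eq hπ _)

end Fermat.Agent.X0Count
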