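import Mathlib
import Fermat.Prelude.Def_ModularCurve_GenusNumerics
import Fermat.Agent.X0Count.Basic

/-!
# Fixed points of `S` and `S * T` on `SL(2,ℤ) ⧸ Γ₀(N)`

The coset of `γ` with first column `(a, c)` is fixed by `S` iff `N ∣ a² + c²`, and by `S * T`
iff `N ∣ a² + a c + c²`.  In both cases `c` is invertible modulo `N`, and `a c⁻¹` is a root of
`x² + 1` (resp. `x² + x + 1`) in `ZMod N`; this gives a bijection between the fixed cosets and
the roots.  We also record that `T ^ N` and `-1` act trivially.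
-/

set_option autoImplicit false

open CongruenceSubgroup ModularCurve
open scoped MatrixGroups

namespace Fermat.Agent.X0Count

/-- The element of `SL(2,ℤ)` with first column `(k, 1)`. -/
def fx_rep (k : ℤ) : SL(2, ℤ) :=
  ⟨!![k, -1; 1, 0], by rw [Matrix.det_fin_two_of]; ring⟩

theorem fx_rep_col (k : ℤ) : (fx_rep k).1 0 0 = k ∧ (fx_rep k).1 1 0 = 1 := by
  constructor <;> simp [fx_rep]

/-- `mk (fx_rep k) = mk γ` iff `k c ≡ a (mod N)`, in `ZMod N`. -/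
theorem fx_mk_rep_eq_mk_iff (N : ℕ) (k : ℤ) (γ : SL(2, ℤ)) :
    (QuotientGroup.mk (fx_rep k) : SL(2, ℤ) ⧸ Gamma0 N) = QuotientGroup.mk γ ↔
      (k : ZMod N) * ((γ.1 1 0 : ℤ) : ZMod N) = ((γ.1 0 0 : ℤ) : ZMod N) := by
  rw [mk_eq_mk_iff, (fx_rep_col k).1, (fx_rep_col k).2, mul_one,
    ← ZMod.intCast_zmod_eq_zero_iff_dvd, Int.cast_sub, Int.cast_mul, sub_eq_zero]

/-- If `N ∣ a² + t a c + c²` with `a`, `c` coprime, then `c` is coprime to `N`. -/
theorem fx_isCoprime_of_dvd {N a c t : ℤ} (h : IsCoprime a c)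
    (hN : N ∣ a ^ 2 + t * a * c + c ^ 2) : IsCoprime c N := by
  have h1 : IsCoprime (a ^ 2 + t * a * c + c ^ 2) c := by
    have h2 : IsCoprime (a ^ 2) c := h.pow_left
    have h3 : a ^ 2 + t * a * c + c ^ 2 = a ^ 2 + c * (t * a + c) := by ring
    rw [h3]
    exact h2.add_mul_left_left (t * a + c)
  exact (h1.of_isCoprime_of_dvd_left hN).symm

/-- General fixed-point count: if the cosets fixed by `g` are exactly those whose first column
`(a, c)` satisfies `N ∣ a² + t a c + c²`, then they are in bijection with the roots of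
`x² + t x + 1` in `ZMod N`. -/
theorem fx_card_fixed_aux (N : ℕ) [NeZero N] (g : SL(2, ℤ)) (t : ℤ)
    (hg : ∀ γ : SL(2, ℤ),
      g • (QuotientGroup.mk γ : SL(2, ℤ) ⧸ Gamma0 N) = QuotientGroup.mk γ ↔
        (N : ℤ) ∣ γ.1 0 0 ^ 2 + t * γ.1 0 0 * γ.1 1 0 + γ.1 1 0 ^ 2) :
    Nat.card {q : SL(2, ℤ) ⧸ Gamma0 N // g • q = q} =
      Nat.card {x : ZMod N // x ^ 2 + (t : ZMod N) * x + 1 = 0} := by
  -- every root has an integer lift
  have hlift : ∀ x : ZMod N, ∃ k : ℤ, (k : ZMod N) = x := ZMod.intCast_surjective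
  -- the coset attached to an integer whose class is a root is fixed
  have hfix : ∀ k : ℤ, ((k : ZMod N)) ^ 2 + (t : ZMod N) * (k : ZMod N) + 1 = 0 →
      g • (QuotientGroup.mk (fx_rep k) : SL(2, ℤ) ⧸ Gamma0 N) = QuotientGroup.mk (fx_rep k) := by
    intro k hk
    rw [hg, (fx_rep_col k).1, (fx_rep_col k).2, ← ZMod.intCast_zmod_eq_zero_iff_dvd]
    push_cast
    rw [← hk]
    ring
  symm
  refine Nat.card_eq_of_bijective
    (fun x : {x : ZMod N // x ^ 2 + (t : ZMod N) * x + 1 = 0} =>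
      (⟨QuotientGroup.mk (fx_rep (Classical.choose (hlift x.1))),
        hfix _ (by rw [Classical.choose_spec (hlift x.1)]; exact x.2)⟩ :
        {q : SL(2, ℤ) ⧸ Gamma0 N // g • q = q})) ⟨?_, ?_⟩
  · -- injectivity
    intro x y hxy
    have h1 := congrArg Subtype.val hxy
    simp only at h1
    rw [fx_mk_rep_eq_mk_iff, (fx_rep_col _).1, (fx_rep_col _).2, Int.cast_one, mul_one,
      Classical.choose_spec (hlift x.1), Classical.choose_spec (hlift y.1)] at h1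
    exact Subtype.ext h1
  · -- surjectivity
    rintro ⟨q, hq⟩
    induction q using QuotientGroup.induction_on with
    | H γ =>
      have hdvd := (hg γ).1 hq
      obtain ⟨d, e, hde⟩ := fx_isCoprime_of_dvd (isCoprime_col γ) hdvd
      have hdc : (d : ZMod N) * ((γ.1 1 0 : ℤ) : ZMod N) = 1 := by
        have h2 := congrArg (Int.cast : ℤ → ZMod N) hde
        push_cast at h2
        rw [ZMod.natCast_self, mul_zero, add_zero] at h2
        exact h2
      have hzero : ((γ.1 0 0 : ℤ) : ZMod N) ^ 2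
          + (t : ZMod N) * ((γ.1 0 0 : ℤ) : ZMod N) * ((γ.1 1 0 : ℤ) : ZMod N)
          + ((γ.1 1 0 : ℤ) : ZMod N) ^ 2 = 0 := by
        have h2 := (ZMod.intCast_zmod_eq_zero_iff_dvd _ N).2 hdvd
        push_cast at h2
        exact h2
      have hroot : (((γ.1 0 0 : ℤ) : ZMod N) * (d : ZMod N)) ^ 2
          + (t : ZMod N) * (((γ.1 0 0 : ℤ) : ZMod N) * (d : ZMod N)) + 1 = 0 := by
        have h3 : (((γ.1 0 0 : ℤ) : ZMod N) * (d : ZMod N)) ^ 2
            + (t : ZMod N) * (((γ.1 0 0 : ℤ) : ZMod N) * (d : ZMod N)) + 1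
            = (d : ZMod N) ^ 2 * (((γ.1 0 0 : ℤ) : ZMod N) ^ 2
              + (t : ZMod N) * ((γ.1 0 0 : ℤ) : ZMod N) * ((γ.1 1 0 : ℤ) : ZMod N)
              + ((γ.1 1 0 : ℤ) : ZMod N) ^ 2)
              + (1 - (d : ZMod N) * ((γ.1 1 0 : ℤ) : ZMod N))
                * (1 + (d : ZMod N) * ((γ.1 1 0 : ℤ) : ZMod N)
                  + (t : ZMod N) * ((γ.1 0 0 : ℤ) : ZMod N) * (d : ZMod N)) := by
          ring
        rw [h3, hzero, hdc]
        ring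
      refine ⟨⟨((γ.1 0 0 : ℤ) : ZMod N) * (d : ZMod N), hroot⟩, ?_⟩
      refine Subtype.ext ?_
      simp only
      rw [fx_mk_rep_eq_mk_iff, Classical.choose_spec (hlift _), mul_assoc, hdc, mul_one]

/-- `S` fixes the coset of `γ` iff `N ∣ a² + c²`. -/
theorem fx_S_smul_mk_iff (N : ℕ) (γ : SL(2, ℤ)) :
    ModularGroup.S • (QuotientGroup.mk γ : SL(2, ℤ) ⧸ Gamma0 N) = QuotientGroup.mk γ ↔
      (N : ℤ) ∣ γ.1 0 0 ^ 2 + (0 : ℤ) * γ.1 0 0 * γ.1 1 0 + γ.1 1 0 ^ 2 := by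
  rw [smul_mk, mk_eq_mk_iff, (S_mul_col γ).1, (S_mul_col γ).2, ← dvd_neg]
  have h : -(-γ.1 1 0 * γ.1 1 0 - γ.1 0 0 * γ.1 0 0)
      = γ.1 0 0 ^ 2 + (0 : ℤ) * γ.1 0 0 * γ.1 1 0 + γ.1 1 0 ^ 2 := by ring
  rw [h]

/-- `S * T` fixes the coset of `γ` iff `N ∣ a² + a c + c²`. -/
theorem fx_ST_smul_mk_iff (N : ℕ) (γ : SL(2, ℤ)) :
    (ModularGroup.S * ModularGroup.T) • (QuotientGroup.mk γ : SL(2, ℤ) ⧸ Gamma0 N)
        = QuotientGroup.mk γ ↔
      (N : ℤ) ∣ γ.1 0 0 ^ 2 + (1 : ℤ) * γ.1 0 0 * γ.1 1 0 + γ.1 1 0 ^ 2 := by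
  rw [smul_mk, mk_eq_mk_iff, (ST_mul_col γ).1, (ST_mul_col γ).2, ← dvd_neg]
  have h : -(-γ.1 1 0 * γ.1 1 0 - γ.1 0 0 * (γ.1 0 0 + γ.1 1 0))
      = γ.1 0 0 ^ 2 + (1 : ℤ) * γ.1 0 0 * γ.1 1 0 + γ.1 1 0 ^ 2 := by ring
  rw [h]

theorem card_fixed_S (N : ℕ) [NeZero N] :
    Nat.card {q : SL(2, ℤ) ⧸ Gamma0 N // ModularGroup.S • q = q} = nuTwo N := by
  rw [fx_card_fixed_aux N ModularGroup.S 0 (fx_S_smul_mk_iff N), nuTwo]
  refine Nat.card_congr (Equiv.subtypeEquivRight fun x => ?_)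
  rw [Int.cast_zero, zero_mul, add_zero]

theorem card_fixed_ST (N : ℕ) [NeZero N] :
    Nat.card {q : SL(2, ℤ) ⧸ Gamma0 N // (ModularGroup.S * ModularGroup.T) • q = q}
      = nuThree N := by
  rw [fx_card_fixed_aux N (ModularGroup.S * ModularGroup.T) 1 (fx_ST_smul_mk_iff N), nuThree]
  refine Nat.card_congr (Equiv.subtypeEquivRight fun x => ?_)
  rw [Int.cast_one, one_mul]

/-- every `T`-orbit on `SL(2,ℤ) ⧸ Γ₀(N)` has size dividing `N` (`T ^ N` acts trivially). -/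
theorem T_pow_smul (N : ℕ) [NeZero N] (q : SL(2, ℤ) ⧸ Gamma0 N) :
    (ModularGroup.T ^ N) • q = q := by
  induction q using QuotientGroup.induction_on with
  | H γ =>
    rw [smul_mk, mk_eq_mk_iff, ← zpow_natCast, (T_zpow_mul_col (N : ℤ) γ).1,
      (T_zpow_mul_col (N : ℤ) γ).2]
    exact ⟨γ.1 1 0 * γ.1 1 0, by ring⟩

/-- `-1` acts trivially on `SL(2,ℤ) ⧸ Γ₀(N)`. -/
theorem neg_one_smul (N : ℕ) [NeZero N] (q : SL(2, ℤ) ⧸ Gamma0 N) :
    (-1 : SL(2, ℤ)) • q = q := by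
  induction q using QuotientGroup.induction_on with
  | H γ =>
    rw [smul_mk, mk_eq_mk_iff, neg_mul, one_mul, Matrix.SpecialLinearGroup.coe_neg,
      Matrix.neg_apply, Matrix.neg_apply]
    exact ⟨0, by ring⟩

end Fermat.Agent.X0Count
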