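import Mathlib
import Fermat.Prelude.Def_ModularCurve_GenusNumerics
import Fermat.Agent.X0Count.Basic

/-!
# The index of `Γ₀(N)` in `SL(2,ℤ)` is `ψ(N)`

We prove `Nat.card (SL(2,ℤ) ⧸ Γ₀(N)) = ψ(N)` (Dedekind's `ψ`) by induction on the prime
factorisation of `N`:

* `[Γ₀(N) : Γ₀(pN)] = p` if `p ∣ N` and `p + 1` otherwise, with explicit coset representatives
  (the lower unipotent matrices with first column `(1, N j)`, `0 ≤ j < p`, and, when `p ∤ N`,
  one more matrix with first column `(p, N)`);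
* `ψ(pN) = p ψ(N)` if `p ∣ N` and `(p + 1) ψ(N)` otherwise.
-/

set_option autoImplicit false

open CongruenceSubgroup ModularCurve
open scoped MatrixGroups

namespace Fermat.Agent.X0Count

/-! ### the group side -/

/-- membership in `Γ₀(N)` in terms of divisibility of the lower left entry. -/
theorem ix_mem_Gamma0_iff (N : ℕ) (γ : SL(2, ℤ)) : γ ∈ Gamma0 N ↔ (N : ℤ) ∣ γ.1 1 0 := by
  rw [Gamma0_mem, ZMod.intCast_zmod_eq_zero_iff_dvd]

/-- `Γ₀(pN) ≤ Γ₀(N)`. -/
theorem ix_Gamma0_le (p N : ℕ) : Gamma0 (p * N) ≤ Gamma0 N := by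
  intro γ hγ
  rw [ix_mem_Gamma0_iff] at hγ ⊢
  exact (Dvd.intro_left (p : ℤ) (by push_cast; ring)).trans hγ

/-- coset criterion in the relative quotient `Γ₀(N) ⧸ Γ₀(pN)`. -/
theorem ix_rel_mk_eq_mk_iff (p N : ℕ) (h h' : Gamma0 N) :
    (QuotientGroup.mk h : Gamma0 N ⧸ (Gamma0 (p * N)).subgroupOf (Gamma0 N))
        = QuotientGroup.mk h' ↔
      ((p : ℤ) * N) ∣ h.1.1 0 0 * h'.1.1 1 0 - h'.1.1 0 0 * h.1.1 1 0 := by
  have := mk_eq_mk_iff (p * N) h.1 h'.1
  rw [QuotientGroup.eq] at this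
  rw [QuotientGroup.eq, Subgroup.mem_subgroupOf]
  push_cast at this
  exact this

/-- the lower unipotent matrix with lower left entry `c`. -/
def ix_low (c : ℤ) : SL(2, ℤ) := ⟨!![1, 0; c, 1], by simp [Matrix.det_fin_two_of]⟩

theorem ix_low_col (c : ℤ) : (ix_low c).1 0 0 = 1 ∧ (ix_low c).1 1 0 = c := by
  simp [ix_low]

/-- the coset representative with first column `(1, N j)`. -/
def ix_L (N : ℕ) (j : ℤ) : Gamma0 N :=
  ⟨ix_low (N * j), by rw [ix_mem_Gamma0_iff, (ix_low_col _).2]; exact dvd_mul_right _ _⟩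

theorem ix_L_col (N : ℕ) (j : ℤ) : (ix_L N j).1.1 0 0 = 1 ∧ (ix_L N j).1.1 1 0 = N * j :=
  ix_low_col _

/-- two of the unipotent representatives are equivalent iff `p ∣ j' - j`. -/
theorem ix_L_eq_iff {p N : ℕ} (hN : N ≠ 0) (j j' : ℤ) :
    (QuotientGroup.mk (ix_L N j) : Gamma0 N ⧸ (Gamma0 (p * N)).subgroupOf (Gamma0 N))
        = QuotientGroup.mk (ix_L N j') ↔ (p : ℤ) ∣ j' - j := by
  rw [ix_rel_mk_eq_mk_iff, (ix_L_col N j).1, (ix_L_col N j).2, (ix_L_col N j').1,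
    (ix_L_col N j').2]
  have hN' : (N : ℤ) ≠ 0 := by exact_mod_cast hN
  rw [show (1 : ℤ) * (N * j') - 1 * (N * j) = (j' - j) * N by ring,
    mul_dvd_mul_iff_right hN']

/-- an element of `Γ₀(N)` whose upper left entry is prime to `p` is equivalent modulo `Γ₀(pN)`
to a unipotent representative. -/
theorem ix_exists_L {p N : ℕ} (hp : p.Prime) (h : Gamma0 N) (ha : ¬ (p : ℤ) ∣ h.1.1 0 0) :
    ∃ j : Fin p,
      (QuotientGroup.mk (ix_L N (j : ℕ)) : Gamma0 N ⧸ (Gamma0 (p * N)).subgroupOf (Gamma0 N))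
        = QuotientGroup.mk h := by
  have hp' : Prime (p : ℤ) := Nat.prime_iff_prime_int.mp hp
  have hp0 : (0 : ℤ) < p := by exact_mod_cast hp.pos
  obtain ⟨u, v, huv⟩ := (hp'.coprime_iff_not_dvd).mpr ha
  obtain ⟨c₀, hc₀⟩ := (ix_mem_Gamma0_iff N h.1).mp h.2
  have h1 : 0 ≤ (v * c₀) % p := Int.emod_nonneg _ hp0.ne'
  have h2 : (v * c₀) % p < p := Int.emod_lt_of_pos _ hp0
  refine ⟨⟨((v * c₀) % p).toNat, by omega⟩, ?_⟩
  rw [ix_rel_mk_eq_mk_iff, (ix_L_col N _).1, (ix_L_col N _).2, hc₀]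
  simp only [Int.toNat_of_nonneg h1]
  rw [Int.emod_def]
  refine ⟨c₀ * u + h.1.1 0 0 * ((v * c₀) / p), ?_⟩
  linear_combination (-(N : ℤ) * c₀) * huv

/-- `[Γ₀(N) : Γ₀(pN)] = p` if `p ∣ N`. -/
theorem ix_relIndex_of_dvd {p N : ℕ} (hp : p.Prime) (hN : N ≠ 0) (hpN : p ∣ N) :
    (Gamma0 (p * N)).relIndex (Gamma0 N) = p := by
  have hp' : Prime (p : ℤ) := Nat.prime_iff_prime_int.mp hp
  let f : Fin p → Gamma0 N ⧸ (Gamma0 (p * N)).subgroupOf (Gamma0 N) :=
    fun j => QuotientGroup.mk (ix_L N (j : ℕ))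
  have hf : Function.Bijective f := by
    constructor
    · intro j j' hjj
      have h1 : (p : ℤ) ∣ ((j' : ℕ) : ℤ) - (j : ℕ) := (ix_L_eq_iff hN _ _).mp hjj
      have h2 := Int.eq_zero_of_abs_lt_dvd h1 (by rw [abs_lt]; omega)
      exact Fin.ext (by omega)
    · intro q
      obtain ⟨h, rfl⟩ := QuotientGroup.mk_surjective q
      have ha : ¬ (p : ℤ) ∣ h.1.1 0 0 := by
        intro hpa
        have hc : (p : ℤ) ∣ h.1.1 1 0 :=
          (Int.natCast_dvd_natCast.mpr hpN).trans ((ix_mem_Gamma0_iff N h.1).mp h.2)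
        exact hp'.not_isUnit ((isCoprime_col h.1).isUnit_of_dvd' hpa hc)
      exact ix_exists_L hp h ha
  have := Nat.card_eq_of_bijective f hf
  rw [Nat.card_fin] at this
  exact this.symm

/-- `[Γ₀(N) : Γ₀(pN)] = p + 1` if `p ∤ N`. -/
theorem ix_relIndex_of_not_dvd {p N : ℕ} (hp : p.Prime) (hN : N ≠ 0) (hpN : ¬ p ∣ N) :
    (Gamma0 (p * N)).relIndex (Gamma0 N) = p + 1 := by
  have hp' : Prime (p : ℤ) := Nat.prime_iff_prime_int.mp hp
  have hN' : (N : ℤ) ≠ 0 := by exact_mod_cast hN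
  have hcop : IsCoprime (p : ℤ) (N : ℤ) :=
    Nat.isCoprime_iff_coprime.mpr ((Nat.Prime.coprime_iff_not_dvd hp).mpr hpN)
  obtain ⟨γ, hγ0, hγ1⟩ := exists_col hcop
  let R : Gamma0 N := ⟨γ, by rw [ix_mem_Gamma0_iff, hγ1]⟩
  let f : Option (Fin p) → Gamma0 N ⧸ (Gamma0 (p * N)).subgroupOf (Gamma0 N) :=
    fun o => o.elim (QuotientGroup.mk R) (fun j => QuotientGroup.mk (ix_L N (j : ℕ)))
  have hLR : ∀ j : ℤ, (QuotientGroup.mk (ix_L N j) :
      Gamma0 N ⧸ (Gamma0 (p * N)).subgroupOf (Gamma0 N)) ≠ QuotientGroup.mk R := by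
    intro j hj
    rw [ix_rel_mk_eq_mk_iff, (ix_L_col N _).1, (ix_L_col N _).2] at hj
    have h1 : (1 : ℤ) * γ.1 1 0 - γ.1 0 0 * (N * j) = (1 - p * j) * N := by
      rw [hγ0, hγ1]; ring
    change (p : ℤ) * N ∣ (1 : ℤ) * γ.1 1 0 - γ.1 0 0 * (N * j) at hj
    rw [h1, mul_dvd_mul_iff_right hN'] at hj
    have h2 : (p : ℤ) ∣ 1 := by
      have := dvd_add hj (dvd_mul_right (p : ℤ) j)
      simpa using this
    exact hp'.not_isUnit (isUnit_of_dvd_one h2)
  have hf : Function.Bijective f := by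
    constructor
    · intro o o' hoo
      cases o with
      | none =>
        cases o' with
        | none => rfl
        | some j' => exact absurd hoo.symm (hLR _)
      | some j =>
        cases o' with
        | none => exact absurd hoo (hLR _)
        | some j' =>
          have h1 : (p : ℤ) ∣ ((j' : ℕ) : ℤ) - (j : ℕ) := (ix_L_eq_iff hN _ _).mp hoo
          have h2 := Int.eq_zero_of_abs_lt_dvd h1 (by rw [abs_lt]; omega)
          exact congrArg some (Fin.ext (by omega))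
    · intro q
      obtain ⟨h, rfl⟩ := QuotientGroup.mk_surjective q
      by_cases ha : (p : ℤ) ∣ h.1.1 0 0
      · refine ⟨none, ?_⟩
        change (QuotientGroup.mk R : Gamma0 N ⧸ (Gamma0 (p * N)).subgroupOf (Gamma0 N)) = _
        rw [ix_rel_mk_eq_mk_iff]
        change (p : ℤ) * N ∣ γ.1 0 0 * h.1.1 1 0 - h.1.1 0 0 * γ.1 1 0
        obtain ⟨c₀, hc₀⟩ := (ix_mem_Gamma0_iff N h.1).mp h.2
        obtain ⟨a₀, ha₀⟩ := ha
        rw [hγ0, hγ1, hc₀, ha₀]
        exact ⟨c₀ - a₀, by ring⟩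
      · obtain ⟨j, hj⟩ := ix_exists_L hp h ha
        exact ⟨some j, hj⟩
  have := Nat.card_eq_of_bijective f hf
  rw [Nat.card_eq_fintype_card, Fintype.card_option, Fintype.card_fin] at this
  exact this.symm

/-- the index of `Γ₀(pN)` in terms of the index of `Γ₀(N)`. -/
theorem ix_card_prime_mul {p N : ℕ} (hp : p.Prime) (hN : N ≠ 0) :
    Nat.card (SL(2, ℤ) ⧸ Gamma0 (p * N))
      = (if p ∣ N then p else p + 1) * Nat.card (SL(2, ℤ) ⧸ Gamma0 N) := by
  have h := Subgroup.relIndex_mul_index (ix_Gamma0_le p N)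
  rw [Subgroup.index, Subgroup.index] at h
  rw [← h]
  split_ifs with hpN
  · rw [ix_relIndex_of_dvd hp hN hpN]
  · rw [ix_relIndex_of_not_dvd hp hN hpN]

/-- `Γ₀(1)` is everything. -/
theorem ix_card_one : Nat.card (SL(2, ℤ) ⧸ Gamma0 1) = 1 := by
  have : Subsingleton (SL(2, ℤ) ⧸ Gamma0 1) := by
    constructor
    intro q q'
    obtain ⟨γ, rfl⟩ := QuotientGroup.mk_surjective q
    obtain ⟨γ', rfl⟩ := QuotientGroup.mk_surjective q'
    rw [mk_eq_mk_iff]
    simp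
  exact Nat.card_unique

/-! ### Dedekind's `ψ` -/

/-- the indicator of squarefree numbers as an arithmetic function. -/
def ix_sqf : ArithmeticFunction ℕ := ⟨fun d => if Squarefree d then 1 else 0, by simp⟩

theorem ix_sqf_apply (d : ℕ) : ix_sqf d = if Squarefree d then 1 else 0 := rfl

theorem ix_sqf_isMultiplicative : ix_sqf.IsMultiplicative := by
  refine ⟨by simp [ix_sqf_apply], ?_⟩
  intro m n hmn
  have h := Nat.squarefree_mul hmn
  rw [ix_sqf_apply, ix_sqf_apply, ix_sqf_apply]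
  by_cases hm : Squarefree m <;> by_cases hn : Squarefree n <;> simp [h, hm, hn]

/-- `ψ` is the Dirichlet convolution of the squarefree indicator and the identity. -/
theorem ix_psi_eq (N : ℕ) : dedekindPsi N = (ix_sqf * ArithmeticFunction.id) N := by
  rw [ArithmeticFunction.mul_apply,
    Nat.sum_divisorsAntidiagonal (fun i j => ix_sqf i * ArithmeticFunction.id j), dedekindPsi,
    Finset.sum_filter]
  refine Finset.sum_congr rfl fun d _ => ?_
  simp [ix_sqf_apply]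

/-- `ψ` is multiplicative. -/
theorem ix_psi_mul {m n : ℕ} (h : m.Coprime n) :
    dedekindPsi (m * n) = dedekindPsi m * dedekindPsi n := by
  rw [ix_psi_eq, ix_psi_eq, ix_psi_eq]
  exact (ix_sqf_isMultiplicative.mul ArithmeticFunction.isMultiplicative_id).map_mul_of_coprime h

/-- `ψ(p) = p + 1`. -/
theorem ix_psi_prime {p : ℕ} (hp : p.Prime) : dedekindPsi p = p + 1 := by
  rw [dedekindPsi, Finset.sum_filter, Nat.Prime.sum_divisors hp]
  simp [hp.squarefree, hp.pos, add_comm]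

/-- `ψ(pN) = p ψ(N)` if `p ∣ N` and `(p + 1) ψ(N)` otherwise. -/
theorem ix_psi_prime_mul {p N : ℕ} (hp : p.Prime) (hN : N ≠ 0) :
    dedekindPsi (p * N) = (if p ∣ N then p else p + 1) * dedekindPsi N := by
  split_ifs with hpN
  · have hfilter : (p * N).divisors.filter Squarefree = N.divisors.filter Squarefree := by
      ext d
      simp only [Finset.mem_filter, Nat.mem_divisors]
      constructor
      · rintro ⟨⟨hd, _⟩, hsq⟩
        refine ⟨⟨?_, hN⟩, hsq⟩
        by_cases hpd : p ∣ d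
        · obtain ⟨e, rfl⟩ := hpd
          have hpe : ¬ p ∣ e := fun hpe =>
            hp.ne_one (Nat.isUnit_iff.mp (hsq p (mul_dvd_mul_left p hpe)))
          have he : e ∣ N := Nat.dvd_of_mul_dvd_mul_left hp.pos hd
          exact Nat.Coprime.mul_dvd_of_dvd_of_dvd
            ((Nat.Prime.coprime_iff_not_dvd hp).mpr hpe) hpN he
        · exact ((Nat.Prime.coprime_iff_not_dvd hp).mpr hpd).symm.dvd_of_dvd_mul_left hd
      · rintro ⟨⟨hd, _⟩, hsq⟩
        exact ⟨⟨hd.mul_left p, mul_ne_zero hp.ne_zero hN⟩, hsq⟩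
    rw [dedekindPsi, dedekindPsi, hfilter, Finset.mul_sum]
    refine Finset.sum_congr rfl fun d hd => ?_
    exact Nat.mul_div_assoc p (Nat.dvd_of_mem_divisors (Finset.mem_filter.mp hd).1)
  · rw [ix_psi_mul ((Nat.Prime.coprime_iff_not_dvd hp).mpr hpN), ix_psi_prime hp]

/-! ### the index formula -/

/-- `|SL(2,ℤ) ⧸ Γ₀(N)| = ψ(N)`. -/
theorem card_quotient_Gamma0 (N : ℕ) [NeZero N] :
    Nat.card (SL(2, ℤ) ⧸ Gamma0 N) = dedekindPsi N := by
  have key : ∀ n : ℕ, n ≠ 0 → Nat.card (SL(2, ℤ) ⧸ Gamma0 n) = dedekindPsi n := by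
    intro n
    induction n using induction_on_primes with
    | zero => intro h; exact absurd rfl h
    | one => intro _; rw [ix_card_one, dedekindPsi_one]
    | prime_mul p a hp ih =>
      intro hpa
      have ha : a ≠ 0 := right_ne_zero_of_mul hpa
      rw [ix_card_prime_mul hp ha, ix_psi_prime_mul hp ha, ih ha]
  exact key N (NeZero.ne N)

/-- `[SL(2,ℤ) : Γ₀(N)] = ψ(N)`. -/
theorem index_Gamma0 (N : ℕ) [NeZero N] : (Gamma0 N).index = dedekindPsi N :=
  card_quotient_Gamma0 N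

end Fermat.Agent.X0Count
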