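import Mathlib
import Fermat.Agent.X0Count.Basic

/-!
# The upper triangular subgroup of `SL(2,ℤ)`
-/

set_option autoImplicit false

open CongruenceSubgroup
open scoped MatrixGroups

namespace Fermat.Agent.X0Count

/-- The upper triangular subgroup `{±T^n}` of `SL(2,ℤ)` (stabilizer of the cusp `∞`). -/
def Kinf : Subgroup SL(2, ℤ) where
  carrier := {g | g.1 1 0 = 0}
  one_mem' := by simp
  mul_mem' := by
    intro a b ha hb
    simp only [Set.mem_setOf_eq] at ha hb ⊢
    rw [Matrix.SpecialLinearGroup.coe_mul, Matrix.mul_apply, Fin.sum_univ_two, ha, hb]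
    ring
  inv_mem' := by
    intro a ha
    simp only [Set.mem_setOf_eq] at ha ⊢
    rw [Matrix.SpecialLinearGroup.coe_inv, Matrix.adjugate_fin_two]
    simp [ha]

theorem mem_Kinf (g : SL(2, ℤ)) : g ∈ Kinf ↔ g.1 1 0 = 0 := Iff.rfl

end Fermat.Agent.X0Count
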