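import Mathlib
import Fermat.Agent.X0Count.Basic
import Fermat.Agent.X0Count.Fixed
import Fermat.Agent.X0Count.Index
import Fermat.Agent.X0Count.Cusps
import Fermat.Agent.X0Count.Kinf

/-!
# Double-coset forms of the counting statements for `Γ₀(N) \ SL(2,ℤ)`

Generic part: for subgroups `H`, `K` of a group `G`, the double cosets `H \ G / K` are in
bijection with the `K`-orbits on `G ⧸ H` (`H g K ↦ K • g⁻¹ H`); orbit counting for a cyclic
group `⟨s⟩` acting on a finite set such that `s ^ p` acts trivially (`p` prime).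

Specific part: the four double-coset statements for `H = Γ₀(N)` and `K` one of
`⟨S⟩`, `⟨S T⟩`, `Kinf = {± T ^ n}`, `⟨-1⟩`, deduced from the orbit / fixed-point forms
`card_quotient_Gamma0`, `card_fixed_S`, `card_fixed_ST`, `card_orbits_T`, `neg_one_smul`.
-/

set_option autoImplicit false

open CongruenceSubgroup ModularCurve
open scoped MatrixGroups

namespace Fermat.Agent.X0Count

/-! ### generic lemmas: double cosets and orbits -/

section Generic

variable {G : Type*} [Group G]

/-- The map `H g K ↦ K • (g⁻¹ H)` from double cosets to `K`-orbits on `G ⧸ H`. -/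
def dc_toOrbit (H K : Subgroup G) :
    DoubleCoset.Quotient (H : Set G) (K : Set G) → MulAction.orbitRel.Quotient K (G ⧸ H) :=
  Quotient.lift
    (fun g : G => (Quotient.mk'' (QuotientGroup.mk g⁻¹ : G ⧸ H) :
      MulAction.orbitRel.Quotient K (G ⧸ H)))
    (by
      intro a b hab
      obtain ⟨h, hh, k, hk, rfl⟩ := DoubleCoset.rel_iff.mp hab
      apply Quotient.sound'
      refine ⟨⟨k, hk⟩, ?_⟩
      show (QuotientGroup.mk (k * (h * a * k)⁻¹) : G ⧸ H) = QuotientGroup.mk a⁻¹
      rw [QuotientGroup.eq]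
      have : (k * (h * a * k)⁻¹)⁻¹ * a⁻¹ = h := by group
      rw [this]
      exact hh)

theorem dc_toOrbit_mk (H K : Subgroup G) (g : G) :
    dc_toOrbit H K (DoubleCoset.mk H K g) = Quotient.mk'' (QuotientGroup.mk g⁻¹ : G ⧸ H) :=
  rfl

theorem dc_toOrbit_bijective (H K : Subgroup G) : Function.Bijective (dc_toOrbit H K) := by
  constructor
  · rintro ⟨a⟩ ⟨b⟩ hab
    obtain ⟨⟨k, hk⟩, hkab⟩ := Quotient.exact' hab
    have h1 : (QuotientGroup.mk (k * b⁻¹) : G ⧸ H) = QuotientGroup.mk a⁻¹ := hkab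
    rw [QuotientGroup.eq] at h1
    refine (DoubleCoset.eq H K a b).mpr ⟨(k * b⁻¹)⁻¹ * a⁻¹, h1, k, hk, ?_⟩
    group
  · rintro ⟨x⟩
    induction x using QuotientGroup.induction_on with
    | H g =>
      refine ⟨DoubleCoset.mk H K g⁻¹, ?_⟩
      rw [dc_toOrbit_mk, inv_inv]
      rfl

/-- Double cosets `H \ G / K` correspond to `K`-orbits on `G ⧸ H`: the double coset `H g K`
goes to the `K`-orbit of the left coset `g⁻¹ H`. -/
noncomputable def dc_equiv (H K : Subgroup G) :
    DoubleCoset.Quotient (H : Set G) (K : Set G) ≃ MulAction.orbitRel.Quotient K (G ⧸ H) :=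
  Equiv.ofBijective (dc_toOrbit H K) (dc_toOrbit_bijective H K)

theorem dc_equiv_mk (H K : Subgroup G) (g : G) :
    dc_equiv H K (DoubleCoset.mk H K g) = Quotient.mk'' (QuotientGroup.mk g⁻¹ : G ⧸ H) :=
  rfl

/-- The number of double cosets `H \ G / K` is the number of `K`-orbits on `G ⧸ H`. -/
theorem dc_card_doubleCoset (H K : Subgroup G) :
    Nat.card (DoubleCoset.Quotient (H : Set G) (K : Set G))
      = Nat.card (MulAction.orbitRel.Quotient K (G ⧸ H)) :=
  Nat.card_congr (dc_equiv H K)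

/-- If `G ⧸ H` is finite then so is `H \ G / K`. -/
theorem dc_finite_doubleCoset (H K : Subgroup G) [Finite (G ⧸ H)] :
    Finite (DoubleCoset.Quotient (H : Set G) (K : Set G)) :=
  Finite.of_equiv _ (dc_equiv H K).symm

variable {Q : Type*} [MulAction G Q]

/-- The orbit of `q` under `⟨s⟩` has `minimalPeriod (s • ·) q` elements. -/
theorem dc_card_orbit_zpowers (s : G) (q : Q) :
    Nat.card (MulAction.orbit (Subgroup.zpowers s) q) = Function.minimalPeriod (s • ·) q := by
  rw [Nat.card_congr (MulAction.orbitZPowersEquiv s q), Nat.card_zmod]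

/-- An element fixed by `s` is fixed by `⟨s⟩`. -/
theorem dc_zpowers_smul_eq (s : G) (q : Q) (hq : s • q = q) (k : Subgroup.zpowers s) :
    k • q = q := by
  have h : Subgroup.zpowers s ≤ MulAction.stabilizer G q :=
    Subgroup.zpowers_le.mpr (MulAction.mem_stabilizer_iff.mpr hq)
  exact MulAction.mem_stabilizer_iff.mp (h k.2)

/-- If `K` acts trivially on `Q` then the orbits are the points. -/
theorem dc_card_orbits_of_trivial (K : Subgroup G) (hK : ∀ k ∈ K, ∀ q : Q, k • q = q) :
    Nat.card (MulAction.orbitRel.Quotient K Q) = Nat.card Q := by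
  symm
  refine Nat.card_eq_of_bijective
    (Quotient.mk'' : Q → MulAction.orbitRel.Quotient K Q) ⟨?_, Quotient.mk''_surjective⟩
  intro a b hab
  obtain ⟨k, hk⟩ := Quotient.exact' hab
  rw [← hk]
  exact hK k.1 k.2 b

/-- Orbit counting for a cyclic group acting through an element of prime order `p`:
orbits have size `1` or `p`, hence `p * #orbits = #Q + (p - 1) * #fixed points`. -/
theorem dc_prime_mul_card_orbits [Finite Q] (s : G) (p : ℕ) (hp : p.Prime)
    (hs : ∀ q : Q, s ^ p • q = q) :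
    p * Nat.card (MulAction.orbitRel.Quotient (Subgroup.zpowers s) Q)
      = Nat.card Q + (p - 1) * Nat.card {q : Q // s • q = q} := by
  classical
  have : Fintype Q := Fintype.ofFinite Q
  have : Fintype (MulAction.orbitRel.Quotient (Subgroup.zpowers s) Q) := Fintype.ofFinite _
  -- the class equation
  have h1 : Nat.card Q
      = ∑ ω : MulAction.orbitRel.Quotient (Subgroup.zpowers s) Q, Nat.card ω.orbit := by
    rw [Nat.card_congr (MulAction.selfEquivSigmaOrbits' (Subgroup.zpowers s) Q), Nat.card_sigma]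
  -- orbits have size `1` or `p`
  have h2 : ∀ ω : MulAction.orbitRel.Quotient (Subgroup.zpowers s) Q,
      Nat.card ω.orbit = 1 ∨ Nat.card ω.orbit = p := by
    intro ω
    induction ω using Quotient.inductionOn' with
    | _ q =>
      rw [MulAction.orbitRel.Quotient.orbit_mk, dc_card_orbit_zpowers]
      refine (Nat.dvd_prime hp).mp (Function.IsPeriodicPt.minimalPeriod_dvd ?_)
      show (fun x => s • x)^[p] q = q
      rw [smul_iterate]
      exact hs q
  -- orbits of size `1` are the fixed points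
  have h3 : Nat.card {ω : MulAction.orbitRel.Quotient (Subgroup.zpowers s) Q //
      Nat.card ω.orbit = 1} = Nat.card {q : Q // s • q = q} := by
    symm
    have hfix : ∀ q : Q, s • q = q ↔
        Nat.card (MulAction.orbitRel.Quotient.orbit
          (Quotient.mk'' q : MulAction.orbitRel.Quotient (Subgroup.zpowers s) Q)) = 1 := by
      intro q
      rw [MulAction.orbitRel.Quotient.orbit_mk, dc_card_orbit_zpowers,
        Function.minimalPeriod_eq_one_iff_isFixedPt]
      rfl
    refine Nat.card_eq_of_bijective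
      (fun q : {q : Q // s • q = q} =>
        (⟨Quotient.mk'' q.1, (hfix q.1).mp q.2⟩ :
          {ω : MulAction.orbitRel.Quotient (Subgroup.zpowers s) Q // Nat.card ω.orbit = 1}))
      ⟨?_, ?_⟩
    · rintro ⟨a, ha⟩ ⟨b, hb⟩ hab
      have hab' : (Quotient.mk'' a : MulAction.orbitRel.Quotient (Subgroup.zpowers s) Q)
          = Quotient.mk'' b := congrArg Subtype.val hab
      obtain ⟨k, hk⟩ := Quotient.exact' hab'
      apply Subtype.ext
      show a = b
      rw [← hk]
      exact dc_zpowers_smul_eq s b hb k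
    · rintro ⟨⟨q⟩, hq⟩
      exact ⟨⟨q, (hfix q).mpr hq⟩, rfl⟩
  have h4 : ∑ ω : MulAction.orbitRel.Quotient (Subgroup.zpowers s) Q,
      (Nat.card ω.orbit + (p - 1) * (if Nat.card ω.orbit = 1 then 1 else 0))
      = ∑ _ω : MulAction.orbitRel.Quotient (Subgroup.zpowers s) Q, p := by
    refine Finset.sum_congr rfl (fun ω _ => ?_)
    have hp1 := hp.one_lt
    rcases h2 ω with h | h
    · rw [h, if_pos rfl]
      omega
    · rw [h, if_neg hp.ne_one]
      omega
  rw [Finset.sum_add_distrib, ← h1, ← Finset.mul_sum, Finset.sum_boole, Finset.sum_const,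
    Finset.card_univ, smul_eq_mul, Nat.cast_id, ← Fintype.card_subtype,
    ← Nat.card_eq_fintype_card, ← Nat.card_eq_fintype_card, h3] at h4
  rw [h4, mul_comm]

/-- If `s ^ 2` acts trivially on the finite set `Q` then
`2 * #(⟨s⟩-orbits) = #Q + #(fixed points of s)`. -/
theorem dc_two_mul_card_orbits [Finite Q] (s : G) (hs : ∀ q : Q, s ^ 2 • q = q) :
    2 * Nat.card (MulAction.orbitRel.Quotient (Subgroup.zpowers s) Q)
      = Nat.card Q + Nat.card {q : Q // s • q = q} := by
  have h := dc_prime_mul_card_orbits s 2 Nat.prime_two hs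
  rw [h]
  norm_num

/-- If `s ^ 3` acts trivially on the finite set `Q` then
`3 * #(⟨s⟩-orbits) = #Q + 2 * #(fixed points of s)`. -/
theorem dc_three_mul_card_orbits [Finite Q] (s : G) (hs : ∀ q : Q, s ^ 3 • q = q) :
    3 * Nat.card (MulAction.orbitRel.Quotient (Subgroup.zpowers s) Q)
      = Nat.card Q + 2 * Nat.card {q : Q // s • q = q} := by
  have h := dc_prime_mul_card_orbits s 3 Nat.prime_three hs
  rw [h]

/-! ### generic lemmas: the double-coset versions -/

/-- If `K` acts trivially on `G ⧸ H` then `#(H \ G / K) = #(G ⧸ H)`. -/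
theorem dc_card_doubleCoset_of_trivial (H K : Subgroup G)
    (hK : ∀ k ∈ K, ∀ q : G ⧸ H, k • q = q) :
    Nat.card (DoubleCoset.Quotient (H : Set G) (K : Set G)) = Nat.card (G ⧸ H) := by
  rw [dc_card_doubleCoset]
  exact dc_card_orbits_of_trivial K hK

/-- Two subgroups with the same orbits on `G ⧸ H` have the same number of orbits. -/
theorem dc_card_orbits_congr (H K K' : Subgroup G)
    (h : ∀ q q' : G ⧸ H, q ∈ MulAction.orbit K q' ↔ q ∈ MulAction.orbit K' q') :
    Nat.card (MulAction.orbitRel.Quotient K (G ⧸ H))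
      = Nat.card (MulAction.orbitRel.Quotient K' (G ⧸ H)) :=
  Nat.card_congr (Quotient.congrRight h)

/-- If `s ^ 2` acts trivially on the finite set `G ⧸ H` then
`2 * #(H \ G / ⟨s⟩) = #(G ⧸ H) + #(fixed points of s)`. -/
theorem dc_two_mul_card_doubleCoset (H : Subgroup G) [Finite (G ⧸ H)] (s : G)
    (hs : ∀ q : G ⧸ H, s ^ 2 • q = q) :
    2 * Nat.card (DoubleCoset.Quotient (H : Set G) (Subgroup.zpowers s : Set G))
      = Nat.card (G ⧸ H) + Nat.card {q : G ⧸ H // s • q = q} := by
  rw [dc_card_doubleCoset]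
  exact dc_two_mul_card_orbits s hs

/-- If `s ^ 3` acts trivially on the finite set `G ⧸ H` then
`3 * #(H \ G / ⟨s⟩) = #(G ⧸ H) + 2 * #(fixed points of s)`. -/
theorem dc_three_mul_card_doubleCoset (H : Subgroup G) [Finite (G ⧸ H)] (s : G)
    (hs : ∀ q : G ⧸ H, s ^ 3 • q = q) :
    3 * Nat.card (DoubleCoset.Quotient (H : Set G) (Subgroup.zpowers s : Set G))
      = Nat.card (G ⧸ H) + 2 * Nat.card {q : G ⧸ H // s • q = q} := by
  rw [dc_card_doubleCoset]
  exact dc_three_mul_card_orbits s hs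

end Generic

/-! ### facts about `SL(2,ℤ)` -/

theorem dc_S_sq : ModularGroup.S ^ 2 = -1 := by
  ext i j
  fin_cases i <;> fin_cases j <;>
    simp [pow_two, ModularGroup.S, Matrix.mul_apply, Fin.sum_univ_two]

theorem dc_ST_cube : (ModularGroup.S * ModularGroup.T) ^ 3 = -1 := by
  ext i j
  fin_cases i <;> fin_cases j <;>
    simp [pow_succ, ModularGroup.S, ModularGroup.T, Matrix.mul_apply, Fin.sum_univ_two]

/-- An element of `Kinf` is `± T ^ n`. -/
theorem dc_Kinf_eq (k : SL(2, ℤ)) (hk : k ∈ Kinf) :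
    ∃ n : ℤ, k = ModularGroup.T ^ n ∨ k = -ModularGroup.T ^ n := by
  have h10 : k 1 0 = 0 := hk
  have hdet := k.det_coe
  replace hdet : k 0 0 * k 1 1 = 1 := by rw [Matrix.det_fin_two, h10] at hdet; linarith
  rcases Int.eq_one_or_neg_one_of_mul_eq_one' hdet with ⟨h00, h11⟩ | ⟨h00, h11⟩
  · refine ⟨k 0 1, Or.inl ?_⟩
    ext i j
    fin_cases i <;> fin_cases j <;> simp [h00, h10, h11, ModularGroup.coe_T_zpow]
  · refine ⟨-(k 0 1), Or.inr ?_⟩
    ext i j
    fin_cases i <;> fin_cases j <;> simp [h00, h10, h11, ModularGroup.coe_T_zpow]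

theorem dc_zpowers_T_le_Kinf : Subgroup.zpowers ModularGroup.T ≤ Kinf := by
  rw [Subgroup.zpowers_le]
  show (ModularGroup.T : SL(2, ℤ)).1 1 0 = 0
  simp [ModularGroup.T]

/-! ### the double-coset forms -/

section Specific

/-- The `Kinf`-orbits on `SL(2,ℤ) ⧸ Γ₀(N)` are the `T`-orbits. -/
theorem dc_orbit_Kinf (N : ℕ) [NeZero N] (q q' : SL(2, ℤ) ⧸ Gamma0 N) :
    q ∈ MulAction.orbit Kinf q' ↔ q ∈ MulAction.orbit (Subgroup.zpowers ModularGroup.T) q' := by
  constructor
  · rintro ⟨⟨k, hk⟩, rfl⟩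
    obtain ⟨n, rfl | rfl⟩ := dc_Kinf_eq k hk
    · exact ⟨⟨ModularGroup.T ^ n, Subgroup.zpow_mem_zpowers _ n⟩, rfl⟩
    · refine ⟨⟨ModularGroup.T ^ n, Subgroup.zpow_mem_zpowers _ n⟩, ?_⟩
      show ModularGroup.T ^ n • q' = (-ModularGroup.T ^ n) • q'
      have h : (-ModularGroup.T ^ n : SL(2, ℤ)) = (-1) * ModularGroup.T ^ n := by
        rw [neg_one_mul]
      rw [h, mul_smul, Fermat.Agent.X0Count.neg_one_smul N]
  · rintro ⟨⟨k, hk⟩, rfl⟩
    exact ⟨⟨k, dc_zpowers_T_le_Kinf hk⟩, rfl⟩

theorem two_mul_card_doubleCoset_S (N : ℕ) [NeZero N] :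
    2 * Nat.card (DoubleCoset.Quotient ((Gamma0 N : Subgroup SL(2, ℤ)) : Set SL(2, ℤ))
        ((Subgroup.zpowers ModularGroup.S : Subgroup SL(2, ℤ)) : Set SL(2, ℤ)))
      = dedekindPsi N + nuTwo N := by
  rw [dc_two_mul_card_doubleCoset (Gamma0 N) ModularGroup.S
    (fun q => by rw [dc_S_sq]; exact Fermat.Agent.X0Count.neg_one_smul N q),
    card_quotient_Gamma0, card_fixed_S]

theorem three_mul_card_doubleCoset_ST (N : ℕ) [NeZero N] :
    3 * Nat.card (DoubleCoset.Quotient ((Gamma0 N : Subgroup SL(2, ℤ)) : Set SL(2, ℤ))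
        ((Subgroup.zpowers (ModularGroup.S * ModularGroup.T) : Subgroup SL(2, ℤ)) :
          Set SL(2, ℤ)))
      = dedekindPsi N + 2 * nuThree N := by
  rw [dc_three_mul_card_doubleCoset (Gamma0 N) (ModularGroup.S * ModularGroup.T)
    (fun q => by rw [dc_ST_cube]; exact Fermat.Agent.X0Count.neg_one_smul N q),
    card_quotient_Gamma0, card_fixed_ST]

theorem card_doubleCoset_Kinf (N : ℕ) [NeZero N] :
    Nat.card (DoubleCoset.Quotient ((Gamma0 N : Subgroup SL(2, ℤ)) : Set SL(2, ℤ))
        ((Kinf : Subgroup SL(2, ℤ)) : Set SL(2, ℤ)))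
      = cuspCount N := by
  rw [dc_card_doubleCoset, ← card_orbits_T N]
  exact dc_card_orbits_congr (Gamma0 N) Kinf (Subgroup.zpowers ModularGroup.T) (dc_orbit_Kinf N)

theorem card_doubleCoset_neg_one (N : ℕ) [NeZero N] :
    Nat.card (DoubleCoset.Quotient ((Gamma0 N : Subgroup SL(2, ℤ)) : Set SL(2, ℤ))
        ((Subgroup.zpowers (-1 : SL(2, ℤ)) : Subgroup SL(2, ℤ)) : Set SL(2, ℤ)))
      = dedekindPsi N := by
  rw [dc_card_doubleCoset_of_trivial, card_quotient_Gamma0]
  intro k hk q
  exact dc_zpowers_smul_eq (-1 : SL(2, ℤ)) q (Fermat.Agent.X0Count.neg_one_smul N q) ⟨k, hk⟩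

end Specific

end Fermat.Agent.X0Count
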