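import Mathlib
import Fermat.Prelude.Def_ModularCurve_GenusNumerics
import Fermat.Agent.X0Count.Basic
import Fermat.Agent.X0Count.Fixed
import Fermat.Agent.X0Count.Index
import Fermat.Agent.X0Count.Cusps
import Fermat.Agent.X0Count.Kinf
import Fermat.Agent.X0Count.DoubleCosets

/-!
# Counting package for `Γ₀(N) \ SL(2,ℤ)` (umbrella file)

`H = CongruenceSubgroup.Gamma0 N ≤ SL(2,ℤ)`.  Two equivalent families of statements:

* double-coset forms `H \ SL(2,ℤ) / K` (`DoubleCosets.lean`:
  `two_mul_card_doubleCoset_S`, `three_mul_card_doubleCoset_ST`, `card_doubleCoset_Kinf`,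
  `card_doubleCoset_neg_one`), and
* fixed-point / orbit forms for the left action of `SL(2,ℤ)` on `SL(2,ℤ) ⧸ H`
  (`Index.lean`: `card_quotient_Gamma0`, `index_Gamma0`; `Fixed.lean`: `card_fixed_S`,
  `card_fixed_ST`, `T_pow_smul`, `neg_one_smul`; `Cusps.lean`: `card_orbits_T`).

Everything is stated for `N ≠ 0`.
-/

set_option autoImplicit false

open CongruenceSubgroup ModularCurve
open scoped MatrixGroups

namespace Fermat.Agent.X0Count

/-! ### the arithmetic (Riemann–Hurwitz bookkeeping) -/

theorem genus_arith (N : ℕ) :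
    ((dedekindPsi N : ℚ) - ((dedekindPsi N : ℚ) + nuTwo N) / 2)
        + ((dedekindPsi N : ℚ) - ((dedekindPsi N : ℚ) + 2 * nuThree N) / 3)
        - dedekindPsi N - cuspCount N
      = 2 * genusFormula N - 2 := by
  unfold genusFormula
  ring

end Fermat.Agent.X0Count
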